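import Mathlib
import Fermat.Agent.MU.S36.Ig.EpsGen

section MergeWrap_S48_W_A1_XExp -- from S48/W/A1/XExp.lean

set_option autoImplicit false

noncomputable section

namespace Fermat.Agent.S48WA1

open Fermat.Agent.S24 Fermat.Agent.S48.Eis1 Fermat.Agent.S48W UpperHalfPlane ModularCurve
open scoped MatrixGroups Real

/-- `x/(1-x)² = ∑ k x^k` -/
theorem xe_hasSum_hFun {x : ℂ} (hx : ‖x‖ < 1) :
    HasSum (fun k : ℕ => (k : ℂ) * x ^ k) (hFun x) := by
  have := hasSum_coe_mul_geometric_of_norm_lt_one hx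
  simpa [hFun] using this

theorem xe_hasSum_hFun_pnat {x : ℂ} (hx : ‖x‖ < 1) :
    HasSum (fun k : ℕ+ => ((k : ℕ) : ℂ) * x ^ (k : ℕ)) (hFun x) := by
  have h := xe_hasSum_hFun hx
  have hinj : Function.Injective (fun k : ℕ+ => (k : ℕ)) := PNat.coe_injective
  refine (hinj.hasSum_iff (f := fun k : ℕ => (k : ℂ) * x ^ k) ?_).mpr h
  intro n hn
  have : n = 0 := by
    by_contra h0
    exact hn ⟨⟨n, Nat.pos_of_ne_zero h0⟩, rfl⟩
  simp [this]

/-- the double family of the Lambert series. -/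
def xeFam (P : ℕ → Prop) [DecidablePred P] (α u : ℂ) (p : ℕ+ × ℕ+) : ℂ :=
  if P p.1 then ((p.2 : ℕ) : ℂ) * α ^ (p.2 : ℕ) * u ^ ((p.1 : ℕ) * (p.2 : ℕ)) else 0

theorem xe_summable_fam (P : ℕ → Prop) [DecidablePred P] {α u : ℂ} (hα : ‖α‖ ≤ 1)
    (hu : ‖u‖ < 1) : Summable (xeFam P α u) := by
  have h := summable_prod_mul_pow (𝕜 := ℝ) 1 (r := ‖u‖) (by simpa using hu)
  refine Summable.of_norm_bounded h fun p => ?_
  unfold xeFam
  split_ifs
  · rw [norm_mul, norm_mul, norm_pow, norm_pow, Complex.norm_natCast, pow_one]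
    have h1 : ‖α‖ ^ (p.2 : ℕ) ≤ 1 := pow_le_one₀ (norm_nonneg _) hα
    calc ((p.2 : ℕ) : ℝ) * ‖α‖ ^ (p.2 : ℕ) * ‖u‖ ^ ((p.1 : ℕ) * (p.2 : ℕ))
        ≤ ((p.2 : ℕ) : ℝ) * 1 * ‖u‖ ^ ((p.1 : ℕ) * (p.2 : ℕ)) := by gcongr
      _ = _ := by rw [mul_one]
  · rw [norm_zero]
    positivity

/-- the `n`-th coefficient of the Lambert series. -/
def xeLam (P : ℕ → Prop) [DecidablePred P] (α : ℂ) (n : ℕ) : ℂ :=
  ∑ d ∈ n.divisors, if P d then ((n / d : ℕ) : ℂ) * α ^ (n / d) else 0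

theorem xe_hasSum_fam_fst (P : ℕ → Prop) [DecidablePred P] {α u : ℂ} (hα : ‖α‖ ≤ 1)
    (hu : ‖u‖ < 1) :
    HasSum (fun d : ℕ+ => if P d then hFun (α * u ^ (d : ℕ)) else 0) (∑' p, xeFam P α u p) := by
  refine HasSum.prod_fiberwise (xe_summable_fam P hα hu).hasSum fun d => ?_
  by_cases hd : P d
  · simp only [xeFam, if_pos hd]
    have hx : ‖α * u ^ (d : ℕ)‖ < 1 := by
      rw [norm_mul, norm_pow]
      have h1 : ‖u‖ ^ (d : ℕ) < 1 := pow_lt_one₀ (norm_nonneg _) hu d.pos.ne'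
      calc ‖α‖ * ‖u‖ ^ (d : ℕ) ≤ 1 * ‖u‖ ^ (d : ℕ) := by gcongr
        _ < 1 := by rwa [one_mul]
    have e : (fun k : ℕ+ => ((k : ℕ) : ℂ) * α ^ (k : ℕ) * u ^ ((d : ℕ) * (k : ℕ)))
        = fun k : ℕ+ => ((k : ℕ) : ℂ) * (α * u ^ (d : ℕ)) ^ (k : ℕ) := by
      funext k
      rw [mul_pow, ← pow_mul, mul_assoc]
    rw [e]
    exact xe_hasSum_hFun_pnat hx
  · simp only [xeFam, if_neg hd]
    exact hasSum_zero

theorem xe_hasSum_fam_sigma (P : ℕ → Prop) [DecidablePred P] {α u : ℂ} (hα : ‖α‖ ≤ 1)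
    (hu : ‖u‖ < 1) :
    HasSum (fun n : ℕ => xeLam P α n * u ^ n) (∑' p, xeFam P α u p) := by
  have h0 := (sigmaAntidiagonalEquivProd.hasSum_iff (f := xeFam P α u)).mpr
    (xe_summable_fam P hα hu).hasSum
  have h1 : HasSum (fun n : ℕ+ => xeLam P α n * u ^ (n : ℕ)) (∑' p, xeFam P α u p) := by
    refine HasSum.sigma h0 fun n => ?_
    have h2 := hasSum_fintype (fun c : Nat.divisorsAntidiagonal (n : ℕ) =>
      (xeFam P α u ∘ sigmaAntidiagonalEquivProd) ⟨n, c⟩)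
    convert h2 using 1
    rw [xeLam, Finset.sum_mul, ← Nat.sum_divisorsAntidiagonal
      (f := fun d k => (if P d then ((k : ℕ) : ℂ) * α ^ k else 0) * u ^ (n : ℕ)),
      ← Finset.sum_coe_sort]
    refine Finset.sum_congr rfl fun x _ => ?_
    obtain ⟨⟨d, k⟩, hx⟩ := x
    have hdk := (Nat.mem_divisorsAntidiagonal.mp hx).1
    have key : (xeFam P α u ∘ sigmaAntidiagonalEquivProd) ⟨n, ⟨(d, k), hx⟩⟩
        = if P d then ((k : ℕ) : ℂ) * α ^ k * u ^ (d * k) else 0 := rfl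
    rw [key]
    have hdk' : d * k = (n : ℕ) := hdk
    by_cases hP : P d
    · simp only [if_pos hP, hdk']
    · simp only [if_neg hP, zero_mul]
  have hinj : Function.Injective (fun k : ℕ+ => (k : ℕ)) := PNat.coe_injective
  refine (hinj.hasSum_iff (f := fun n : ℕ => xeLam P α n * u ^ n) ?_).mp h1
  intro n hn
  have : n = 0 := by
    by_contra h0
    exact hn ⟨⟨n, Nat.pos_of_ne_zero h0⟩, rfl⟩
  simp [this, xeLam]

/-- **Lambert series**: `∑_{d ≥ 1, P d} h(α u^d) = ∑_n (∑_{d ∣ n, P d} (n/d) α^{n/d}) u^n`. -/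
theorem xe_lambert (P : ℕ → Prop) [DecidablePred P] {α u : ℂ} (hα : ‖α‖ ≤ 1)
    (hu : ‖u‖ < 1) :
    ∃ S : ℂ, HasSum (fun d : ℕ+ => if P d then hFun (α * u ^ (d : ℕ)) else 0) S ∧
      HasSum (fun n : ℕ => xeLam P α n * u ^ n) S :=
  ⟨_, xe_hasSum_fam_fst P hα hu, xe_hasSum_fam_sigma P hα hu⟩

/-! ### the `E₂` part -/

/-- coefficients of `E₂` in `u`. -/
def xeE2 (M : ℕ) (n : ℕ) : ℂ :=
  (if n = 0 then 1 else 0)
    - 24 * (if n ≠ 0 ∧ M ∣ n then ∑ d ∈ (n / M).divisors, (d : ℂ) else 0)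

theorem xe_hasSum_E2 (M : ℕ) [NeZero M] (τ : ℍ) :
    HasSum (fun n : ℕ => xeE2 M n * uParam M τ ^ n) (EisensteinSeries.E2 τ) := by
  have h := EisensteinSeries.hasSum_qExpansion_E2 (z := τ)
  have hM : 0 < M := Nat.pos_of_ne_zero (NeZero.ne M)
  have hinj : Function.Injective (fun j : ℕ => M * j) :=
    fun a b hab => Nat.eq_of_mul_eq_mul_left hM hab
  have hu : uParam M τ ^ M = Complex.exp (2 * π * Complex.I * τ) := by
    rw [uParam_pow]
    simp [uParam, Function.Periodic.qParam]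
  refine (hinj.hasSum_iff (f := fun n : ℕ => xeE2 M n * uParam M τ ^ n) ?_).mp ?_
  · intro n hn
    have hnd : ¬ M ∣ n := fun ⟨j, hj⟩ => hn ⟨j, hj.symm⟩
    have hn0 : n ≠ 0 := fun h0 => hnd (h0 ▸ dvd_zero M)
    simp [xeE2, hn0, hnd]
  · have e : ((fun n : ℕ => xeE2 M n * uParam M τ ^ n) ∘ fun j : ℕ => M * j)
        = fun m : ℕ => (if m = 0 then 1 else -24 * ((ArithmeticFunction.sigma 1 m : ℕ) : ℂ)) •
            Complex.exp (2 * π * Complex.I * τ) ^ m := by
      funext m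
      simp only [Function.comp_apply, smul_eq_mul]
      rw [pow_mul, hu]
      congr 1
      by_cases hm : m = 0
      · simp [xeE2, hm]
      · have hMm : M * m ≠ 0 := Nat.mul_ne_zero hM.ne' hm
        simp [xeE2, hm, hMm, hM.ne', Nat.mul_div_cancel_left m hM,
          ArithmeticFunction.sigma_one_apply]
    rw [e]
    exact h

/-! ### the division point -/

theorem xe_not_isLat (M : ℕ) [NeZero M] {r s : ℤ} (h : IsNZ M r s) (τ : ℍ) :
    ¬ IsLat (divPt M r s τ) τ := by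
  rintro ⟨m, n, hmn⟩
  have hM : (M : ℂ) ≠ 0 := Nat.cast_ne_zero.mpr (NeZero.ne M)
  rw [divPt, div_eq_iff hM] at hmn
  have key : ((r - m * M : ℤ) : ℂ) * τ = ((n * M - s : ℤ) : ℂ) := by
    push_cast
    linear_combination hmn
  have him := congrArg Complex.im key
  have hτ : (τ : ℂ).im ≠ 0 := ne_of_gt τ.im_pos
  have h1 : r - m * M = 0 := by
    by_contra hne
    apply hτ
    have : ((r - m * M : ℤ) : ℝ) * (τ : ℂ).im = 0 := by
      simpa using him
    rcases mul_eq_zero.mp this with h2 | h2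
    · exact absurd (by exact_mod_cast h2) hne
    · exact h2
  have h2 : n * M - s = 0 := by
    rw [h1] at key
    simp only [Int.cast_zero, zero_mul] at key
    exact_mod_cast key.symm
  exact h ⟨⟨m, by linarith⟩, ⟨n, by linarith⟩⟩

theorem xe_xFun_eq (M : ℕ) [NeZero M] {r s : ℤ} (h : IsNZ M r s) (τ : ℍ) :
    xFun M r s τ = EisensteinSeries.E2 τ + 12 * wFun (divPt M r s τ) τ := by
  have hπ : (π : ℂ) ≠ 0 := Complex.ofReal_ne_zero.mpr Real.pi_ne_zero
  rw [xFun, weierstrassP_latPair τ (xe_not_isLat M h τ)]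
  simp only [EisensteinSeries.E2, Pi.smul_apply, smul_eq_mul, riemannZeta_two]
  have hI : (2 * (π : ℂ) * Complex.I) ^ 2 = -(4 * (π : ℂ) ^ 2) := by
    rw [mul_pow, mul_pow, Complex.I_sq]
    ring
  rw [hI]
  field_simp
  ring

/-- `e((rτ + s)/M + mτ) = ζ^s u^(r + M m)`. -/
theorem xe_eExp (M : ℕ) [NeZero M] (r s m : ℤ) (τ : ℍ) :
    eExp (divPt M r s τ + m * τ)
      = Complex.exp (2 * π * Complex.I / M) ^ s * uParam M τ ^ (r + M * m) := by
  have hM : (M : ℂ) ≠ 0 := Nat.cast_ne_zero.mpr (NeZero.ne M)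
  rw [eExp, divPt, uParam, Function.Periodic.qParam, ← Complex.exp_int_mul,
    ← Complex.exp_int_mul, ← Complex.exp_add]
  congr 1
  push_cast
  field_simp
  ring

/-- the congruence class `d ≡ r`. -/
def xePA (M : ℕ) (r : ℤ) (d : ℕ) : Prop := ((d : ℕ) : ZMod M) = (r : ZMod M)

/-- the congruence class `d ≡ -r`. -/
def xePB (M : ℕ) (r : ℤ) (d : ℕ) : Prop := ((d : ℕ) : ZMod M) = -(r : ZMod M)

instance xePA_dec (M : ℕ) (r : ℤ) : DecidablePred (xePA M r) := fun d =>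
  inferInstanceAs (Decidable (((d : ℕ) : ZMod M) = (r : ZMod M)))

instance xePB_dec (M : ℕ) (r : ℤ) : DecidablePred (xePB M r) := fun d =>
  inferInstanceAs (Decidable (((d : ℕ) : ZMod M) = -(r : ZMod M)))

/-- the coefficients of `W((rτ + s)/M, τ)` in `u`, `α = ζ^s`. -/
def xeW (M : ℕ) (α : ℂ) (r : ℤ) (n : ℕ) : ℂ :=
  (if n = 0 then (if (M : ℤ) ∣ r then hFun α else 0) else 0)
    + xeLam (xePA M r) α n + xeLam (xePB M r) α⁻¹ n

/-! ### reindexing the congruence classes -/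

theorem xe_reidx_A (M : ℕ) [NeZero M] (r₀ : ℕ) (hr : 0 < r₀) (hrM : r₀ < M) (g : ℕ → ℂ) (S : ℂ)
    (h : HasSum (fun d : ℕ+ => if (((d : ℕ) : ZMod M) = ((r₀ : ℤ) : ZMod M)) then g d else 0) S) :
    HasSum (fun m : ℕ => g (r₀ + M * m)) S := by
  have hM : 0 < M := Nat.pos_of_ne_zero (NeZero.ne M)
  let i : ℕ → ℕ+ := fun m => ⟨r₀ + M * m, by positivity⟩
  have hi : ∀ m, ((i m : ℕ+) : ℕ) = r₀ + M * m := fun m => rfl
  have hinj : Function.Injective i := by
    intro a b hab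
    have h1 : r₀ + M * a = r₀ + M * b := by rw [← hi a, ← hi b, hab]
    exact Nat.eq_of_mul_eq_mul_left hM (Nat.add_left_cancel h1)
  have h2 := (hinj.hasSum_iff
    (f := fun d : ℕ+ => if (((d : ℕ) : ZMod M) = ((r₀ : ℤ) : ZMod M)) then g d else 0) ?_).mpr h
  · convert h2 using 1
    funext m
    simp only [Function.comp_apply, hi]
    rw [if_pos]
    push_cast
    simp
  · intro d hd
    rw [if_neg]
    intro hc
    apply hd
    rw [Int.cast_natCast, ZMod.natCast_eq_natCast_iff', Nat.mod_eq_of_lt hrM] at hc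
    refine ⟨(d : ℕ) / M, ?_⟩
    apply PNat.coe_injective
    rw [hi, ← hc]
    exact Nat.mod_add_div _ _

theorem xe_reidx_B (M : ℕ) [NeZero M] (r₀ : ℕ) (hrM : r₀ < M) (g : ℕ → ℂ) (S : ℂ)
    (h : HasSum (fun d : ℕ+ => if (((d : ℕ) : ZMod M) = -((r₀ : ℤ) : ZMod M)) then g d else 0) S) :
    HasSum (fun m : ℕ => g (M * (m + 1) - r₀)) S := by
  have hM : 0 < M := Nat.pos_of_ne_zero (NeZero.ne M)
  have hle : ∀ m : ℕ, r₀ < M * (m + 1) := fun m =>
    lt_of_lt_of_le hrM (Nat.le_mul_of_pos_right M (Nat.succ_pos m))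
  let i : ℕ → ℕ+ := fun m => ⟨M * (m + 1) - r₀, Nat.sub_pos_of_lt (hle m)⟩
  have hi : ∀ m, ((i m : ℕ+) : ℕ) = M * (m + 1) - r₀ := fun m => rfl
  have hinj : Function.Injective i := by
    intro a b hab
    have h1 : M * (a + 1) - r₀ = M * (b + 1) - r₀ := by rw [← hi a, ← hi b, hab]
    have ha := hle a
    have hb := hle b
    have h3 : M * (a + 1) = M * (b + 1) := by omega
    have := Nat.eq_of_mul_eq_mul_left hM h3
    omega
  have h2 := (hinj.hasSum_iff
    (f := fun d : ℕ+ => if (((d : ℕ) : ZMod M) = -((r₀ : ℤ) : ZMod M)) then g d else 0) ?_).mpr h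
  · convert h2 using 1
    funext m
    simp only [Function.comp_apply, hi]
    rw [if_pos]
    rw [Nat.cast_sub (hle m).le]
    push_cast
    simp
  · intro d hd
    rw [if_neg]
    intro hc
    apply hd
    have h3 : (((d : ℕ) + r₀ : ℕ) : ZMod M) = 0 := by
      rw [Nat.cast_add, hc]
      simp
    rw [ZMod.natCast_eq_zero_iff] at h3
    obtain ⟨t, ht⟩ := h3
    have hd0 : 0 < (d : ℕ) := d.pos
    have ht0 : t ≠ 0 := by
      rintro rfl
      rw [mul_zero] at ht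
      omega
    obtain ⟨t', rfl⟩ := Nat.exists_eq_succ_of_ne_zero ht0
    refine ⟨t', ?_⟩
    apply PNat.coe_injective
    rw [hi]
    rw [Nat.succ_eq_add_one] at ht
    omega


/-! ### the `W` part -/

theorem xe_hasSum_W (M : ℕ) [NeZero M] (r₀ : ℕ) (s : ℤ) (hrM : r₀ < M)
    (h : IsNZ M (r₀ : ℤ) s) (τ : ℍ) :
    HasSum (fun n : ℕ =>
        xeW M (Complex.exp (2 * π * Complex.I / M) ^ s) (r₀ : ℤ) n * uParam M τ ^ n)
      (wFun (divPt M (r₀ : ℤ) s τ) τ) := by
  have hM : 0 < M := Nat.pos_of_ne_zero (NeZero.ne M)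
  set u := uParam M τ with hu
  set α := Complex.exp (2 * π * Complex.I / M) ^ s with hα
  have hun : ‖u‖ < 1 := norm_uParam_lt_one M τ
  have hu0 : u ≠ 0 := uParam_ne_zero M τ
  have hαn : ‖α‖ = 1 := by rw [hα, norm_zpow, HasExp.norm_exp_two_pi_div, one_zpow]
  have hα0 : α ≠ 0 := by
    intro h0
    rw [h0, norm_zero] at hαn
    exact zero_ne_one hαn
  have hαi : ‖α⁻¹‖ = 1 := by rw [norm_inv, hαn, inv_one]
  obtain ⟨SA, hA1, hA2⟩ := xe_lambert (xePA M r₀) hαn.le hun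
  obtain ⟨SB, hB1, hB2⟩ := xe_lambert (xePB M r₀) hαi.le hun
  set f : ℤ → ℂ := fun m => hFun (eExp (divPt M (r₀ : ℤ) s τ + m * τ)) with hfdef
  have hf : ∀ m : ℤ, f m = hFun (α * u ^ ((r₀ : ℤ) + M * m)) := fun m => by
    rw [hfdef]
    simp only
    rw [xe_eExp]
  -- the negative half
  have HB : HasSum (fun m : ℕ => f (-((m : ℤ) + 1))) SB := by
    have h1 := xe_reidx_B M r₀ hrM (fun d => hFun (α⁻¹ * u ^ d)) SB hB1
    convert h1 using 1
    funext m
    have hle : r₀ ≤ M * (m + 1) :=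
      (lt_of_lt_of_le hrM (Nat.le_mul_of_pos_right M (Nat.succ_pos m))).le
    have he : (r₀ : ℤ) + M * (-((m : ℤ) + 1)) = -((M * (m + 1) - r₀ : ℕ) : ℤ) := by
      rw [Nat.cast_sub hle]
      push_cast
      ring
    rw [hf, he, zpow_neg, zpow_natCast]
    have hx : α⁻¹ * u ^ (M * (m + 1) - r₀) ≠ 0 :=
      mul_ne_zero (inv_ne_zero hα0) (pow_ne_zero _ hu0)
    rw [← hFun_inv hx, mul_inv, inv_inv]
  -- the constant
  set c : ℂ := if (M : ℤ) ∣ (r₀ : ℤ) then hFun α else 0 with hc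
  -- the nonnegative half
  have HA : HasSum (fun m : ℕ => f (m : ℤ)) (c + SA) := by
    rcases Nat.eq_zero_or_pos r₀ with h0 | hpos
    · subst h0
      have hc' : c = hFun α := by
        rw [hc, if_pos]
        simp
      have h1 := xe_reidx_B M 0 hM (fun d => hFun (α * u ^ d)) SA (by
        convert hA1 using 2 with d
        simp [xePA])
      have h2 : HasSum (fun m : ℕ => f ((m + 1 : ℕ) : ℤ)) SA := by
        convert h1 using 1
        funext m
        rw [hf]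
        have he : ((0 : ℕ) : ℤ) + M * ((m + 1 : ℕ) : ℤ) = ((M * (m + 1) - 0 : ℕ) : ℤ) := by
          rw [Nat.sub_zero]
          push_cast
          ring
        rw [he, zpow_natCast]
      have h3 := HasSum.zero_add (f := fun m : ℕ => f (m : ℤ)) h2
      convert h3 using 1
      rw [hc', hf]
      simp
    · have hc' : c = 0 := by
        rw [hc, if_neg]
        intro hdvd
        have : M ∣ r₀ := by exact_mod_cast hdvd
        exact absurd (Nat.le_of_dvd hpos this) (not_le.mpr hrM)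
      rw [hc', zero_add]
      have h1 := xe_reidx_A M r₀ hpos hrM (fun d => hFun (α * u ^ d)) SA hA1
      convert h1 using 1
      funext m
      rw [hf]
      have he : (r₀ : ℤ) + M * (m : ℤ) = ((r₀ + M * m : ℕ) : ℤ) := by
        push_cast
        ring
      rw [he, zpow_natCast]
  have HW : wFun (divPt M (r₀ : ℤ) s τ) τ = c + SA + SB :=
    (HasSum.of_nat_of_neg_add_one HA HB).tsum_eq
  rw [HW]
  have hconst : HasSum (fun n : ℕ => (if n = 0 then c else 0) * u ^ n) c := by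
    have h1 := hasSum_single (f := fun n : ℕ => (if n = 0 then c else 0) * u ^ n) 0
      (fun b hb => by simp [hb])
    simpa using h1
  have := (hconst.add hA2).add hB2
  convert this using 1
  funext n
  rw [xeW, add_mul, add_mul]

/-! ### the coefficients -/

theorem xe_iota_xCoeff (M : ℕ) [NeZero M] (ζ : Kbar) (r s : ℤ) (n : ℕ) :
    iota (xCoeff M ζ r s n) = xeE2 M n + 12 * xeW M (iota ζ ^ s) r n := by
  have hL : iota (∑ d ∈ n.divisors,
        ((if ((d : ℕ) : ZMod M) = (r : ZMod M)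
            then ((n / d : ℕ) : Kbar) * ζ ^ (s * ((n / d : ℕ) : ℤ)) else 0)
          + (if ((d : ℕ) : ZMod M) = -(r : ZMod M)
            then ((n / d : ℕ) : Kbar) * ζ ^ (-(s * ((n / d : ℕ) : ℤ))) else 0)))
      = xeLam (xePA M r) (iota ζ ^ s) n + xeLam (xePB M r) (iota ζ ^ s)⁻¹ n := by
    rw [map_sum, xeLam, xeLam, ← Finset.sum_add_distrib]
    refine Finset.sum_congr rfl fun d _ => ?_
    rw [map_add]
    congr 1
    · by_cases hd : ((d : ℕ) : ZMod M) = (r : ZMod M)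
      · rw [if_pos hd, if_pos (show xePA M r d from hd), map_mul, map_natCast, map_zpow₀,
          zpow_mul, zpow_natCast]
      · rw [if_neg hd, if_neg (show ¬ xePA M r d from hd), map_zero]
    · by_cases hd : ((d : ℕ) : ZMod M) = -(r : ZMod M)
      · rw [if_pos hd, if_pos (show xePB M r d from hd), map_mul, map_natCast, map_zpow₀,
          zpow_neg, zpow_mul, zpow_natCast, inv_pow]
      · rw [if_neg hd, if_neg (show ¬ xePB M r d from hd), map_zero]
  have hT1 : iota (if n = 0 then 1 + (if (M : ℤ) ∣ r then 12 * (ζ ^ s / (1 - ζ ^ s) ^ 2) else 0)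
        else 0)
      = (if n = 0 then (1 : ℂ) else 0)
        + 12 * (if n = 0 then (if (M : ℤ) ∣ r then hFun (iota ζ ^ s) else 0) else 0) := by
    have h12 : iota 12 = 12 := map_ofNat iota 12
    by_cases hn : n = 0
    · by_cases hr : (M : ℤ) ∣ r
      · simp [hn, hr, hFun, map_zpow₀, h12]
      · simp [hn, hr]
    · simp [hn]
  have hT2 : iota (if n ≠ 0 ∧ M ∣ n then ∑ d ∈ (n / M).divisors, (d : Kbar) else 0)
      = (if n ≠ 0 ∧ M ∣ n then ∑ d ∈ (n / M).divisors, (d : ℂ) else 0) := by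
    by_cases hn : n ≠ 0 ∧ M ∣ n
    · rw [if_pos hn, if_pos hn, map_sum]
      simp
    · rw [if_neg hn, if_neg hn, map_zero]
  rw [xCoeff, map_add, map_sub, map_mul, map_mul, hL, hT1, hT2, xeE2, xeW]
  simp only [map_ofNat]
  ring

/-- **(A1a) the `q`-expansion of `X_{(r,s)}`** at `∞`. -/
theorem xExp : XExpStatement := by
  intro M _ ζ hζ r s hr0 hrM hnz τ
  lift r to ℕ using hr0
  have hrM' : r < M := by exact_mod_cast hrM
  have hsum : HasSum (fun n : ℕ =>
      iota (PowerSeries.coeff n (PowerSeries.mk (xCoeff M ζ (r : ℤ) s))) * uParam M τ ^ n)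
      (xFun M (r : ℤ) s τ) := by
    rw [xe_xFun_eq M hnz τ]
    have h1 := (xe_hasSum_E2 M τ).add ((xe_hasSum_W M r s hrM' hnz τ).mul_left 12)
    convert h1 using 1
    funext n
    rw [PowerSeries.coeff_mk, xe_iota_xCoeff, hζ]
    ring
  refine ⟨?_, hsum⟩
  refine hsum.summable.norm.congr fun n => ?_
  rw [norm_mul, norm_pow]

end Fermat.Agent.S48WA1
end
end MergeWrap_S48_W_A1_XExp
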