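import Mathlib
import Fermat.Prelude.Def_ModularCurve_X0ModL
import Fermat.Prelude.Thm_ModularCurve_coeffMap_qExpand
import Fermat.Agent.MU.S36.Ig.EpsGen
import Fermat.Agent.MU.S48.W.H.DefsBar
import Fermat.Agent.MU.S48.W.H.Defs
import Fermat.Agent.MU.F3.DictC.GensExp
import Fermat.Agent.MU.F3.DictC.Periods
import Fermat.Agent.MU.S48.W.A1.Slash
import Fermat.Agent.MU.S48.W.A1.EqExp
import Fermat.Agent.MU.S48.W.A1.FExp
import Fermat.Agent.MU.S48.W.A1.Hol

section MergeWrap_S48_W_A1_Alg -- from S48/W/A1/Alg.lean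

set_option autoImplicit false

noncomputable section

namespace Fermat.Agent.S48WA1

open Fermat.Agent.S24 Fermat.Agent.S24Inv Fermat.Agent.S48W UpperHalfPlane ModularCurve Polynomial
open scoped MatrixGroups

/-! ### the action of `SL₂(ℤ)` on `(ℤ/M)² ∖ 0` -/

/-- `v ↦ v · γ` on row vectors modulo `M`. -/
def actZ (M : ℕ) (γ : SL(2, ℤ)) (v : ZMod M × ZMod M) : ZMod M × ZMod M :=
  (v.1 * ((γ 0 0 : ℤ) : ZMod M) + v.2 * ((γ 1 0 : ℤ) : ZMod M),
    v.1 * ((γ 0 1 : ℤ) : ZMod M) + v.2 * ((γ 1 1 : ℤ) : ZMod M))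

theorem actZ_one (M : ℕ) (v : ZMod M × ZMod M) : actZ M 1 v = v := by
  ext <;> simp [actZ]

theorem actZ_mul (M : ℕ) (γ γ' : SL(2, ℤ)) (v : ZMod M × ZMod M) :
    actZ M (γ * γ') v = actZ M γ' (actZ M γ v) := by
  ext
  · simp only [actZ, Matrix.SpecialLinearGroup.coe_mul, Matrix.mul_apply, Fin.sum_univ_two]
    push_cast
    ring
  · simp only [actZ, Matrix.SpecialLinearGroup.coe_mul, Matrix.mul_apply, Fin.sum_univ_two]
    push_cast
    ring

theorem actZ_zero (M : ℕ) (γ : SL(2, ℤ)) : actZ M γ 0 = 0 := by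
  ext <;> simp [actZ]

/-- `v ↦ v · γ` as a permutation. -/
def actEquiv (M : ℕ) (γ : SL(2, ℤ)) : ZMod M × ZMod M ≃ ZMod M × ZMod M where
  toFun := actZ M γ
  invFun := actZ M γ⁻¹
  left_inv v := by rw [← actZ_mul, mul_inv_cancel, actZ_one]
  right_inv v := by rw [← actZ_mul, inv_mul_cancel, actZ_one]

/-- the index set `(ℤ/M)² ∖ 0`. -/
abbrev VIdx (M : ℕ) : Type := {v : ZMod M × ZMod M // v ≠ 0}

/-- `v ↦ v · γ` as a permutation of `(ℤ/M)² ∖ 0`. -/
def actIdx (M : ℕ) (γ : SL(2, ℤ)) : VIdx M ≃ VIdx M :=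
  (actEquiv M γ).subtypeEquiv fun _ =>
    ((actEquiv M γ).injective.ne_iff' (actZ_zero M γ)).symm

theorem actIdx_coe (M : ℕ) (γ : SL(2, ℤ)) (v : VIdx M) :
    ((actIdx M γ v : VIdx M) : ZMod M × ZMod M) = actZ M γ v := rfl

/-! ### the Fricke functions indexed by `(ℤ/M)² ∖ 0` -/

/-- `F_v`, `v ∈ (ℤ/M)² ∖ 0` (standard representatives). -/
def frickeIdx (M : ℕ) (v : VIdx M) : Fun :=
  frickeFun M ((v.1.1.val : ℕ) : ℤ) ((v.1.2.val : ℕ) : ℤ)

theorem isNZ_iff_cast (M : ℕ) (r s : ℤ) :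
    IsNZ M r s ↔ (((r : ℤ) : ZMod M), ((s : ℤ) : ZMod M)) ≠ 0 := by
  rw [IsNZ, Ne, Prod.mk_eq_zero, ZMod.intCast_zmod_eq_zero_iff_dvd,
    ZMod.intCast_zmod_eq_zero_iff_dvd]

theorem cast_val_a1 (M : ℕ) [NeZero M] (x : ZMod M) : (((x.val : ℕ) : ℤ) : ZMod M) = x := by
  rw [Int.cast_natCast, ZMod.natCast_zmod_val]

theorem isNZ_val (M : ℕ) [NeZero M] (v : VIdx M) :
    IsNZ M ((v.1.1.val : ℕ) : ℤ) ((v.1.2.val : ℕ) : ℤ) := by
  rw [isNZ_iff_cast, cast_val_a1, cast_val_a1]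
  exact v.2

theorem frickeFun_congr_a1 (hP : XPeriodStatement) (M : ℕ) [NeZero M] {r s r' s' : ℤ}
    (h : IsNZ M r s) (hr : ((r : ℤ) : ZMod M) = ((r' : ℤ) : ZMod M))
    (hs : ((s : ℤ) : ZMod M) = ((s' : ℤ) : ZMod M)) :
    frickeFun M r s = frickeFun M r' s' := by
  obtain ⟨k, hk⟩ := (ZMod.intCast_eq_intCast_iff_dvd_sub r r' M).mp hr
  obtain ⟨l, hl⟩ := (ZMod.intCast_eq_intCast_iff_dvd_sub s s' M).mp hs
  have e1 : r' = r + M * k := by linarith
  have e2 : s' = s + M * l := by linarith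
  rw [frickeFun, frickeFun, e1, e2, (hP M r s h).1 k l]

theorem frickeIdx_smul (hP : XPeriodStatement) (hS : FrickeSmulStatement) (M : ℕ) [NeZero M]
    (γ : SL(2, ℤ)) (v : VIdx M) :
    γ • frickeIdx M v = frickeIdx M (actIdx M γ⁻¹ v) := by
  rw [frickeIdx, hS M _ _ γ, frickeIdx]
  have hr : (((actL γ⁻¹ ((v.1.1.val : ℕ) : ℤ) ((v.1.2.val : ℕ) : ℤ) : ℤ)) : ZMod M)
      = (actZ M γ⁻¹ v.1).1 := by
    simp only [actL, actZ]
    push_cast
    rw [ZMod.natCast_zmod_val, ZMod.natCast_zmod_val]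
  have hs : (((actR γ⁻¹ ((v.1.1.val : ℕ) : ℤ) ((v.1.2.val : ℕ) : ℤ) : ℤ)) : ZMod M)
      = (actZ M γ⁻¹ v.1).2 := by
    simp only [actR, actZ]
    push_cast
    rw [ZMod.natCast_zmod_val, ZMod.natCast_zmod_val]
  refine frickeFun_congr_a1 hP M ?_ ?_ ?_
  · rw [isNZ_iff_cast, hr, hs]
    exact (actIdx M γ⁻¹ v).2
  · rw [hr, cast_val_a1, actIdx_coe]
  · rw [hs, cast_val_a1, actIdx_coe]

/-! ### holomorphic functions with an expansion -/

/-- the algebra of holomorphic functions with an expansion at `∞`. -/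
def goodSub (M : ℕ) [NeZero M] : Subalgebra Kbar Fun where
  carrier := {f | IsHol f ∧ ∃ a : LaurentSeries Kbar, HasExp M f a}
  mul_mem' := by
    rintro f g ⟨hf, a, ha⟩ ⟨hg, b, hb⟩
    exact ⟨hf.mul hg, _, ha.mul hb⟩
  add_mem' := by
    rintro f g ⟨hf, a, ha⟩ ⟨hg, b, hb⟩
    exact ⟨hf.add hg, _, ha.add hb⟩
  algebraMap_mem' c := ⟨isHol_algebraMap c, _, HasExp.algebraMap M c⟩

theorem hasExp_aeval_a1 {M : ℕ} [NeZero M] {f : Fun} {a : LaurentSeries Kbar}
    (h : HasExp M f a) (P : Polynomial Kbar) :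
    HasExp M (Polynomial.aeval f P) (Polynomial.aeval a P) := by
  induction P using Polynomial.induction_on' with
  | add p q hp hq =>
      rw [map_add, map_add]
      exact hp.add hq
  | monomial n c =>
      rw [Polynomial.aeval_monomial, Polynomial.aeval_monomial]
      exact (HasExp.algebraMap M c).mul (hasExp_pow h n)

theorem hasExp_eval₂_a1 {M : ℕ} [NeZero M] {f x : Fun} {a b : LaurentSeries Kbar}
    (hf : HasExp M f a) (hx : HasExp M x b) (P : Polynomial (Polynomial Kbar)) :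
    HasExp M (Polynomial.eval₂ (Polynomial.aeval f).toRingHom x P)
      (Polynomial.eval₂ (Polynomial.aeval a).toRingHom b P) := by
  induction P using Polynomial.induction_on' with
  | add p q hp hq =>
      rw [Polynomial.eval₂_add, Polynomial.eval₂_add]
      exact hp.add hq
  | monomial n c =>
      rw [Polynomial.eval₂_monomial, Polynomial.eval₂_monomial]
      exact (hasExp_aeval_a1 hf c).mul (hasExp_pow hx n)

theorem hasExp_zero_a1 (M : ℕ) [NeZero M] : HasExp M 0 0 := by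
  have h := HasExp.algebraMap M (0 : Kbar)
  rwa [map_zero, map_zero] at h

/-! ### the characteristic polynomial of the Fricke functions -/

/-- `Π_v (T - F_v)`. -/
def frickePoly (M : ℕ) [NeZero M] : Polynomial Fun :=
  ∏ v : VIdx M, (Polynomial.X - Polynomial.C (frickeIdx M v))

theorem frickePoly_monic (M : ℕ) [NeZero M] : (frickePoly M).Monic :=
  Polynomial.monic_prod_of_monic _ _ fun v _ => Polynomial.monic_X_sub_C _

theorem frickePoly_eval (M : ℕ) [NeZero M] (v : VIdx M) :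
    (frickePoly M).eval (frickeIdx M v) = 0 := by
  rw [frickePoly, Polynomial.eval_prod]
  exact Finset.prod_eq_zero (Finset.mem_univ v) (by simp)

theorem frickePoly_coeff_smul (hP : XPeriodStatement) (hS : FrickeSmulStatement) (M : ℕ)
    [NeZero M] (γ : SL(2, ℤ)) (k : ℕ) :
    γ • (frickePoly M).coeff k = (frickePoly M).coeff k := by
  have h1 : (frickePoly M).map (MulSemiringAction.toRingHom SL(2, ℤ) Fun γ) = frickePoly M := by
    rw [frickePoly, Polynomial.map_prod]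
    have h2 : ∀ v : VIdx M, (Polynomial.X - Polynomial.C (frickeIdx M v)).map
        (MulSemiringAction.toRingHom SL(2, ℤ) Fun γ)
          = Polynomial.X - Polynomial.C (frickeIdx M (actIdx M γ⁻¹ v)) := by
      intro v
      rw [Polynomial.map_sub, Polynomial.map_X, Polynomial.map_C,
        MulSemiringAction.toRingHom_apply, frickeIdx_smul hP hS]
    simp only [h2]
    exact Equiv.prod_comp (actIdx M γ⁻¹)
      (fun v => (Polynomial.X - Polynomial.C (frickeIdx M v) : Polynomial Fun))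
  have h3 := congrArg (fun Q : Polynomial Fun => Q.coeff k) h1
  simpa [Polynomial.coeff_map] using h3

theorem frickePoly_coeff_mem (hH : FrickeHolStatement) (hE : FrickeExpStatement) (M : ℕ)
    [NeZero M] (k : ℕ) : (frickePoly M).coeff k ∈ goodSub M := by
  have hF : ∀ v : VIdx M, frickeIdx M v ∈ goodSub M := fun v =>
    ⟨hH M _ _ (isNZ_val M v), (hE M).1 _ _ (isNZ_val M v)⟩
  have h1 : frickePoly M = (∏ v : VIdx M,
      (Polynomial.X - Polynomial.C (⟨frickeIdx M v, hF v⟩ : goodSub M))).map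
        (goodSub M).val.toRingHom := by
    rw [frickePoly, Polynomial.map_prod]
    refine Finset.prod_congr rfl fun v _ => ?_
    rw [Polynomial.map_sub, Polynomial.map_X, Polynomial.map_C]
    rfl
  rw [h1, Polynomial.coeff_map]
  exact Subtype.property _

/-- **(A1d)**, formal version. -/
theorem frickeIntegral_of (hH : FrickeHolStatement) (hS : FrickeSmulStatement)
    (hP : XPeriodStatement) (hE : FrickeExpStatement) : FrickeIntegralStatement := by
  intro M _ a ha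
  -- the coefficients are polynomials in `j`
  have hc : ∀ k : ℕ, ∃ Pk : Polynomial Kbar,
      Polynomial.aeval jFun Pk = (frickePoly M).coeff k := by
    intro k
    obtain ⟨hhol, b, hb⟩ := frickePoly_coeff_mem hH hE M k
    exact invariant M _ b hhol (fun γ => frickePoly_coeff_smul hP hS M γ k) hb
  choose Pk hPk using hc
  set n := (frickePoly M).natDegree with hn
  refine ⟨Polynomial.X ^ n + ∑ k : Fin n, Polynomial.C (Pk k) * Polynomial.X ^ (k : ℕ),
    Polynomial.monic_X_pow_add (Polynomial.degree_sum_fin_lt _), ?_⟩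
  -- the point `v₀ = (a, 0)`
  have hv0 : ((a, 0) : ZMod M × ZMod M) ≠ 0 := by
    intro h
    exact ha (Prod.mk_eq_zero.mp h).1
  let v₀ : VIdx M := ⟨(a, 0), hv0⟩
  have hF0 : frickeIdx M v₀ = frickeFun M ((a.val : ℕ) : ℤ) 0 := by
    show frickeFun M ((a.val : ℕ) : ℤ) (((0 : ZMod M).val : ℕ) : ℤ) = _
    rw [ZMod.val_zero]
    rfl
  have hexp : HasExp M (frickeIdx M v₀) (coeffEmb Kbar (fricke M a)) := by
    rw [hF0]
    have h := (hE M).2 ((a.val : ℕ) : ℤ)
      (by exact_mod_cast (ZMod.val_pos.mpr ha)) (by exact_mod_cast ZMod.val_lt a)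
    rwa [cast_val_a1] at h
  -- the equation in `Fun`
  have hzero : Polynomial.eval₂ (Polynomial.aeval jFun : Polynomial Kbar →ₐ[Kbar] Fun).toRingHom
      (frickeIdx M v₀)
      (Polynomial.X ^ n + ∑ k : Fin n, Polynomial.C (Pk k) * Polynomial.X ^ (k : ℕ)) = 0 := by
    rw [Polynomial.eval₂_add, Polynomial.eval₂_pow, Polynomial.eval₂_X, Polynomial.eval₂_finsetSum]
    have h1 : ∀ k : Fin n, Polynomial.eval₂
        (Polynomial.aeval jFun : Polynomial Kbar →ₐ[Kbar] Fun).toRingHom (frickeIdx M v₀)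
        (Polynomial.C (Pk k) * Polynomial.X ^ (k : ℕ))
          = (frickePoly M).coeff k * frickeIdx M v₀ ^ (k : ℕ) := by
      intro k
      rw [Polynomial.eval₂_mul, Polynomial.eval₂_C, Polynomial.eval₂_pow, Polynomial.eval₂_X]
      congr 1
      exact hPk k
    simp only [h1]
    have h2 := frickePoly_eval M v₀
    rw [(frickePoly_monic M).as_sum, Polynomial.eval_add, Polynomial.eval_pow, Polynomial.eval_X,
      Polynomial.eval_finsetSum] at h2
    simp only [Polynomial.eval_mul, Polynomial.eval_C, Polynomial.eval_pow, Polynomial.eval_X]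
      at h2
    rw [← hn] at h2
    rw [Fin.sum_univ_eq_sum_range
      (fun k => (frickePoly M).coeff k * frickeIdx M v₀ ^ k) n]
    exact h2
  have h3 := hasExp_eval₂_a1 (hasExp_jFun M) hexp
    (Polynomial.X ^ n + ∑ k : Fin n, Polynomial.C (Pk k) * Polynomial.X ^ (k : ℕ))
  rw [hzero] at h3
  exact h3.unique (hasExp_zero_a1 M)



/-- descent of integrality along an injective ring homomorphism `ι : L → LK`, where the
coefficients are allowed to involve elements of `LK` integral over `K`. -/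
theorem alg_descent {K L LK C : Type*} [Field K] [Field L] [Field LK] [CommRing C] [Algebra K L]
    (ι : L →+* LK) (g : C →+* LK)
    (hg : ∀ c : C, ∃ p : K[X], p.Monic ∧ eval₂ (ι.comp (algebraMap K L)) (g c) p = 0)
    (j : K) (x : L) (P : Polynomial (Polynomial C)) (hPm : P.Monic)
    (hP : eval₂ (eval₂RingHom g (ι (algebraMap K L j))) (ι x) P = 0) :
    IsAlgebraic K x := by
  let _ : Algebra K LK := (ι.comp (algebraMap K L)).toAlgebra
  have hmap : ∀ k : K, algebraMap K LK k = ι (algebraMap K L k) := fun _ => rfl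
  let f : L →ₐ[K] LK := { ι with commutes' := fun _ => rfl }
  have hf : Function.Injective f := ι.injective
  let A : Subalgebra K LK := Algebra.adjoin K (Set.range g)
  have hA : Algebra.IsIntegral K A := by
    refine Algebra.IsIntegral.adjoin ?_
    rintro _ ⟨c, rfl⟩
    obtain ⟨p, hp, h0⟩ := hg c
    exact ⟨p, hp, h0⟩
  -- the coefficient homomorphism
  let g' : C →+* A := g.codRestrict A.toSubring
    (fun c => Algebra.subset_adjoin ⟨c, rfl⟩)
  let jA : A := ⟨ι (algebraMap K L j), by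
    rw [← hmap]
    exact A.algebraMap_mem j⟩
  let φ : Polynomial C →+* A := eval₂RingHom g' jA
  have hφ : (algebraMap A LK).comp φ = eval₂RingHom g (ι (algebraMap K L j)) := by
    refine Polynomial.ringHom_ext (fun c => ?_) ?_
    · simp [φ, g']
    · simp [φ, jA]
  have hint : IsIntegral A (ι x) := by
    refine ⟨P.map φ, hPm.map φ, ?_⟩
    rw [eval₂_map, hφ]
    exact hP
  have h1 : IsIntegral K (ι x) := isIntegral_trans (ι x) hint
  have h2 : IsIntegral K (f x) := h1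
  exact ((isIntegral_algHom_iff f hf).mp h2).isAlgebraic

theorem coeffEmb_jq_a1 : coeffEmb Kbar jq = jqModC Kbar := by
  rw [← jqModC_rat]
  exact map_jqModC (algebraMap ℚ Kbar)

theorem coeffEmb_jqM_a1 (M : ℕ) [NeZero M] :
    coeffEmb Kbar (qExpand ℚ M jq) = qExpand Kbar M (jqModC Kbar) := by
  rw [coeffEmb_qExpand_w, coeffEmb_jq_a1]

/-- **(A1d)** the Fricke functions are algebraic over the function field of `X₀(M)`. -/
theorem frickeAlgebraicOne_of (h : FrickeIntegralStatement) (M : ℕ) [NeZero M] :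
    FrickeAlgebraicOne M := by
  intro a ha
  obtain ⟨P, hPm, hP⟩ := h M a ha
  refine alg_descent (K := modularFunctionFieldFull M) (coeffEmb Kbar)
    (algebraMap Kbar (LaurentSeries Kbar)) ?_
    ⟨qExpand ℚ M jq, jqd_mem_full M (dvd_refl M)⟩ (fricke M a) P hPm ?_
  · intro c
    haveI : Algebra.IsAlgebraic ℚ Kbar := AlgebraicClosure.isAlgebraic ℚ
    obtain ⟨p, hp, h0⟩ := (Algebra.IsIntegral.isIntegral (R := ℚ) c : IsIntegral ℚ c)
    refine ⟨p.map (algebraMap ℚ (modularFunctionFieldFull M)), hp.map _, ?_⟩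
    rw [eval₂_map]
    have e : ((coeffEmb Kbar).comp (algebraMap (modularFunctionFieldFull M) (LaurentSeries ℚ))).comp
        (algebraMap ℚ (modularFunctionFieldFull M))
          = (algebraMap Kbar (LaurentSeries Kbar)).comp (algebraMap ℚ Kbar) :=
      RingHom.ext_rat _ _
    rw [e, ← Polynomial.hom_eval₂, h0, map_zero]
  · have e : (Polynomial.aeval (qExpand Kbar M (jqModC Kbar)) :
          Polynomial Kbar →ₐ[Kbar] LaurentSeries Kbar).toRingHom
        = eval₂RingHom (algebraMap Kbar (LaurentSeries Kbar))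
          (coeffEmb Kbar (algebraMap (modularFunctionFieldFull M) (LaurentSeries ℚ)
            ⟨qExpand ℚ M jq, jqd_mem_full M (dvd_refl M)⟩)) := by
      refine Polynomial.ringHom_ext (fun c => ?_) ?_
      · simp
      · simp only [AlgHom.toRingHom_eq_coe, RingHom.coe_coe, aeval_X, coe_eval₂RingHom, eval₂_X]
        exact (coeffEmb_jqM_a1 M).symm
    rw [← e]
    exact hP


/-- **(A1d)**, `ℚ̄`-form. -/
theorem frickeAlgebraicBarOne_of_integral (h : FrickeIntegralStatement) (M : ℕ) [NeZero M] :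
    FrickeAlgebraicBarOne M := by
  intro a ha
  obtain ⟨P, hPm, hP⟩ := h M a ha
  refine isAlgebraic_bar_of_monic M _ P hPm ?_
  rw [coeffEmb_jqM_a1]
  exact hP

end Fermat.Agent.S48WA1
end
end MergeWrap_S48_W_A1_Alg

section MergeWrap_S48_W_A1_Diam -- from S48/W/A1/Diam.lean

set_option autoImplicit false

noncomputable section

namespace Fermat.Agent.S48WA1

section JD

open Fermat.Agent.F3Dict UpperHalfPlane ModularCurve

/-- the `q`-expansion of `j(dτ)` is `j(q^d)` (over `ℂ`; copy of `F3DegW.hasExp_one_jd`). -/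
theorem diam_hasExp_one_jd (d : ℕ) [NeZero d] :
    HasExp 1 (jd d) (qExpand Kc d (jqModC Kc)) := by
  have hd0 : 0 < d := Nat.pos_of_ne_zero (NeZero.ne d)
  rw [GensExp.qExpand_jqModC]
  have hφ : ∀ τ : ℍ, uParam 1 (scale d τ) = iota 1 * uParam 1 τ ^ d := by
    intro τ
    rw [uParam_one_scale 1 d τ, map_one, one_mul, one_mul]
  exact GensExp.hasExp_subst hasPExp_jFun (scale d) 1 GensExp.iota_one_norm d hd0 hφ

end JD

open Fermat.Agent.S24 Fermat.Agent.S48W UpperHalfPlane ModularCurve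
open scoped MatrixGroups Real

/-! ### from `ℚ̄`-expansions to `ℂ`-expansions -/

theorem diam_hasPExp_bridge {f : Fermat.Agent.S24.Fun} {p : PowerSeries Kbar}
    (h : Fermat.Agent.S24.HasPExp 1 f p) :
    Fermat.Agent.F3Dict.HasPExp 1 (fun τ => f τ) (p.map iota) := by
  intro τ
  obtain ⟨h1, h2⟩ := h τ
  refine ⟨?_, ?_⟩
  · have e : (fun n : ℕ => ‖Fermat.Agent.F3Dict.iota (PowerSeries.coeff n (p.map iota))‖ *
        ‖Fermat.Agent.F3Dict.uParam 1 τ‖ ^ n)
        = fun n : ℕ => ‖iota (PowerSeries.coeff n p)‖ * ‖uParam 1 τ‖ ^ n := by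
      funext n
      rw [PowerSeries.coeff_map]
      rfl
    rw [e]
    exact h1
  · have e : (fun n : ℕ => Fermat.Agent.F3Dict.iota (PowerSeries.coeff n (p.map iota)) *
        Fermat.Agent.F3Dict.uParam 1 τ ^ n)
        = fun n : ℕ => iota (PowerSeries.coeff n p) * uParam 1 τ ^ n := by
      funext n
      rw [PowerSeries.coeff_map]
      rfl
    rw [e]
    exact h2

theorem diam_hasExp_bridge {f : Fermat.Agent.S24.Fun} {a : LaurentSeries Kbar}
    (h : Fermat.Agent.S24.HasExp 1 f a) :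
    Fermat.Agent.F3Dict.HasExp 1 (fun τ => f τ) (coeffMap iota a) := by
  obtain ⟨m, p, rfl, hp⟩ := h
  refine ⟨m, p.map iota, ?_, ?_⟩
  · rw [map_mul, coeffMap_single, map_one, coeffMap_ofPowerSeries]
  · exact diam_hasPExp_bridge hp

theorem diam_coeffMap_coeffEmb (x : LaurentSeries ℚ) :
    coeffMap iota (coeffEmb Kbar x) = coeffEmb ℂ x := by
  rw [coeffEmb, coeffMap_coeffMap]
  exact coeffMap_congr (RingHom.ext fun c => by simp) x

/-! ### the matrix -/

theorem diam_exists_gamma (M : ℕ) [NeZero M] (d : (ZMod M)ˣ) :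
    ∃ γ : SL(2, ℤ), γ ∈ CongruenceSubgroup.Gamma0 M ∧ ((γ 0 0 : ℤ) : ZMod M) = d := by
  have hcop : Nat.Coprime (d : ZMod M).val M := ZMod.val_coe_unit_coprime d
  have hcop' : IsCoprime (((d : ZMod M).val : ℕ) : ℤ) (M : ℤ) := Nat.isCoprime_iff_coprime.mpr hcop
  obtain ⟨u, v, huv⟩ := hcop'
  refine ⟨⟨!![(((d : ZMod M).val : ℕ) : ℤ), -v; (M : ℤ), u], ?_⟩, ?_, ?_⟩
  · rw [Matrix.det_fin_two_of]
    linear_combination huv
  · rw [CongruenceSubgroup.Gamma0_mem]
    show (((M : ℤ) : ℤ) : ZMod M) = 0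
    rw [Int.cast_natCast, ZMod.natCast_self]
  · show (((((d : ZMod M).val : ℕ) : ℤ)) : ZMod M) = d
    rw [Int.cast_natCast, ZMod.natCast_zmod_val]

theorem diam_Gamma0_le_of_dvd {e M : ℕ} (h : e ∣ M) {γ : SL(2, ℤ)}
    (hγ : γ ∈ CongruenceSubgroup.Gamma0 M) : γ ∈ CongruenceSubgroup.Gamma0 e := by
  rw [CongruenceSubgroup.Gamma0_mem] at hγ ⊢
  rw [ZMod.intCast_zmod_eq_zero_iff_dvd] at hγ ⊢
  exact (Int.natCast_dvd_natCast.mpr h).trans hγ

/-! ### good series -/

/-- `f ∘ γ`. -/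
def diamComp (γ : SL(2, ℤ)) (f : Fermat.Agent.F3Dict.Fun) : Fermat.Agent.F3Dict.Fun :=
  fun τ => f (γ • τ)

theorem diamComp_add (γ : SL(2, ℤ)) (f g : Fermat.Agent.F3Dict.Fun) :
    diamComp γ (f + g) = diamComp γ f + diamComp γ g := rfl

theorem diamComp_mul (γ : SL(2, ℤ)) (f g : Fermat.Agent.F3Dict.Fun) :
    diamComp γ (f * g) = diamComp γ f * diamComp γ g := rfl

theorem diamComp_algebraMap (γ : SL(2, ℤ)) (c : ℂ) :
    diamComp γ (algebraMap Fermat.Agent.F3Dict.Kc Fermat.Agent.F3Dict.Fun c)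
      = algebraMap Fermat.Agent.F3Dict.Kc Fermat.Agent.F3Dict.Fun c := rfl

/-- `x` is the expansion of a function `f` such that `f ∘ γ` has the expansion `y`. -/
def DiamRel (γ : SL(2, ℤ)) (x y : LaurentSeries ℂ) : Prop :=
  ∃ f : Fermat.Agent.F3Dict.Fun,
    Fermat.Agent.F3Dict.HasExp 1 f x ∧ Fermat.Agent.F3Dict.HasExp 1 (diamComp γ f) y

theorem DiamRel.unique {γ : SL(2, ℤ)} {x y y' : LaurentSeries ℂ} (h : DiamRel γ x y)
    (h' : DiamRel γ x y') : y = y' := by
  obtain ⟨f, hf, hfy⟩ := h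
  obtain ⟨f', hf', hfy'⟩ := h'
  have e : f = f' := Fermat.Agent.F3Dict.HasExp.fun_unique hf hf'
  subst e
  exact Fermat.Agent.F3Dict.HasExp.unique hfy hfy'

theorem DiamRel.add {γ : SL(2, ℤ)} {x y x' y' : LaurentSeries ℂ} (h : DiamRel γ x y)
    (h' : DiamRel γ x' y') : DiamRel γ (x + x') (y + y') := by
  obtain ⟨f, hf, hfy⟩ := h
  obtain ⟨f', hf', hfy'⟩ := h'
  exact ⟨f + f', hf.add hf', by rw [diamComp_add]; exact hfy.add hfy'⟩

theorem DiamRel.mul {γ : SL(2, ℤ)} {x y x' y' : LaurentSeries ℂ} (h : DiamRel γ x y)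
    (h' : DiamRel γ x' y') : DiamRel γ (x * x') (y * y') := by
  obtain ⟨f, hf, hfy⟩ := h
  obtain ⟨f', hf', hfy'⟩ := h'
  exact ⟨f * f', hf.mul hf', by rw [diamComp_mul]; exact hfy.mul hfy'⟩

theorem DiamRel.algebraMap (γ : SL(2, ℤ)) (c : ℂ) :
    DiamRel γ (algebraMap ℂ (LaurentSeries ℂ) c) (algebraMap ℂ (LaurentSeries ℂ) c) :=
  ⟨_, Fermat.Agent.F3Dict.HasExp.algebraMap 1 c, by
    rw [diamComp_algebraMap]; exact Fermat.Agent.F3Dict.HasExp.algebraMap 1 c⟩

/-- the algebra of the good series. -/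
def diamGood (γ : SL(2, ℤ)) : Subalgebra ℂ (LaurentSeries ℂ) where
  carrier := {x | ∃ y, DiamRel γ x y}
  mul_mem' := by
    rintro x x' ⟨y, h⟩ ⟨y', h'⟩
    exact ⟨y * y', h.mul h'⟩
  add_mem' := by
    rintro x x' ⟨y, h⟩ ⟨y', h'⟩
    exact ⟨y + y', h.add h'⟩
  algebraMap_mem' := fun c => ⟨_, DiamRel.algebraMap γ c⟩

theorem mem_diamGood {γ : SL(2, ℤ)} {x : LaurentSeries ℂ} :
    x ∈ diamGood γ ↔ ∃ y, DiamRel γ x y := Iff.rfl

/-- the expansion of `f ∘ γ`, as a function of the expansion of `f`. -/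
def diamFun (γ : SL(2, ℤ)) (x : diamGood γ) : LaurentSeries ℂ := (mem_diamGood.mp x.2).choose

theorem diamFun_spec (γ : SL(2, ℤ)) (x : diamGood γ) : DiamRel γ (x : LaurentSeries ℂ) (diamFun γ x) :=
  (mem_diamGood.mp x.2).choose_spec

theorem diamFun_eq {γ : SL(2, ℤ)} {x y : LaurentSeries ℂ} (h : DiamRel γ x y)
    (hx : x ∈ diamGood γ) : diamFun γ ⟨x, hx⟩ = y :=
  (diamFun_spec γ ⟨x, hx⟩).unique h

/-- `x ↦ y` as a homomorphism of `ℂ`-algebras. -/
def diamMap (γ : SL(2, ℤ)) : diamGood γ →ₐ[ℂ] LaurentSeries ℂ where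
  toFun := diamFun γ
  map_one' := by
    have h := DiamRel.algebraMap γ 1
    rw [map_one] at h
    exact diamFun_eq h _
  map_mul' x x' := diamFun_eq ((diamFun_spec γ x).mul (diamFun_spec γ x')) _
  map_zero' := by
    have h := DiamRel.algebraMap γ 0
    rw [map_zero] at h
    exact diamFun_eq h _
  map_add' x x' := diamFun_eq ((diamFun_spec γ x).add (diamFun_spec γ x')) _
  commutes' c := diamFun_eq (DiamRel.algebraMap γ c) _

theorem diamMap_eq {γ : SL(2, ℤ)} {x y : LaurentSeries ℂ} (h : DiamRel γ x y)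
    (hx : x ∈ diamGood γ) : diamMap γ ⟨x, hx⟩ = y :=
  diamFun_eq h hx

/-! ### the generators are good -/

/-- the `q`-expansion of `j(eτ)` is `j(q^e)` (over `ℂ`). -/
theorem diam_hasExp_jd (e : ℕ) [NeZero e] :
    Fermat.Agent.F3Dict.HasExp 1 (Fermat.Agent.F3Dict.jd e) (coeffEmb ℂ (qExpand ℚ e jq)) := by
  have h := diam_hasExp_one_jd e
  have e1 : coeffEmb ℂ (qExpand ℚ e jq)
      = qExpand Fermat.Agent.F3Dict.Kc e (jqModC Fermat.Agent.F3Dict.Kc) := by
    rw [coeffEmb, coeffMap_qExpand, ← jqModC_rat, coeffMap_jqModC]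
  rw [e1]
  exact h

theorem diamRel_jd {M : ℕ} [NeZero M] {γ : SL(2, ℤ)} (hγ : γ ∈ CongruenceSubgroup.Gamma0 M)
    (e : ℕ) [NeZero e] (he : e ∣ M) :
    DiamRel γ (coeffEmb ℂ (qExpand ℚ e jq)) (coeffEmb ℂ (qExpand ℚ e jq)) := by
  refine ⟨Fermat.Agent.F3Dict.jd e, diam_hasExp_jd e, ?_⟩
  have e1 : diamComp γ (Fermat.Agent.F3Dict.jd e) = Fermat.Agent.F3Dict.jd e := by
    funext τ
    exact Fermat.Agent.F3Dict.Periods.jd_apply_smul_of_mem_Gamma0 e γ
      (diam_Gamma0_le_of_dvd he hγ) τ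
  rw [e1]
  exact diam_hasExp_jd e

theorem diamRel_fricke (hE : FrickeOneExpStatement) (hS : FrickeOneSmulStatement)
    {M : ℕ} [NeZero M] {γ : SL(2, ℤ)} (hγ : γ ∈ CongruenceSubgroup.Gamma0 M)
    (d : (ZMod M)ˣ) (hd : ((γ 0 0 : ℤ) : ZMod M) = d) (a : ZMod M) (ha : a ≠ 0) :
    DiamRel γ (coeffEmb ℂ (fricke M a)) (coeffEmb ℂ (fricke M ((d : ZMod M) * a))) := by
  have ha' : (((a.val : ℕ) : ℤ) : ZMod M) = a := by
    rw [Int.cast_natCast, ZMod.natCast_zmod_val]
  have hnd : ¬ (M : ℤ) ∣ ((a.val : ℕ) : ℤ) := by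
    rw [← ZMod.intCast_zmod_eq_zero_iff_dvd, ha']
    exact ha
  have hda : (((((a.val : ℕ) : ℤ) * γ 0 0 : ℤ)) : ZMod M) = (d : ZMod M) * a := by
    rw [Int.cast_mul, ha', hd, mul_comm]
  have hda0 : (d : ZMod M) * a ≠ 0 := by
    intro h0
    apply ha
    have := congrArg (fun z => ((d⁻¹ : (ZMod M)ˣ) : ZMod M) * z) h0
    simpa [← mul_assoc] using this
  have hnd' : ¬ (M : ℤ) ∣ (((a.val : ℕ) : ℤ) * γ 0 0) := by
    rw [← ZMod.intCast_zmod_eq_zero_iff_dvd, hda]
    exact hda0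
  have h1 := diam_hasExp_bridge (hE M ((a.val : ℕ) : ℤ) hnd)
  rw [ha', diam_coeffMap_coeffEmb] at h1
  have h2 := diam_hasExp_bridge (hE M (((a.val : ℕ) : ℤ) * γ 0 0) hnd')
  rw [hda, diam_coeffMap_coeffEmb] at h2
  refine ⟨fun τ => frickeOne M ((a.val : ℕ) : ℤ) τ, h1, ?_⟩
  have e1 : diamComp γ (fun τ => frickeOne M ((a.val : ℕ) : ℤ) τ)
      = fun τ => frickeOne M (((a.val : ℕ) : ℤ) * γ 0 0) τ := by
    funext τ
    exact hS M ((a.val : ℕ) : ℤ) γ hγ τ
  rw [e1]
  exact h2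

/-- **(A1-DIAM)** the diamond substitution over `ℂ`. -/
theorem diamondComplexOne_of (hE : FrickeOneExpStatement) (hS : FrickeOneSmulStatement)
    (M : ℕ) [NeZero M] : DiamondComplexOne M := by
  intro d
  obtain ⟨γ, hγ, hγd⟩ := diam_exists_gamma M d
  have hgen : Algebra.adjoin ℂ (⇑(coeffEmb ℂ) '' genOne M) ≤ diamGood γ := by
    refine Algebra.adjoin_le ?_
    rintro _ ⟨x, hx, rfl⟩
    rcases hx with ⟨e, he, heM, rfl⟩ | ⟨a, ha, rfl⟩
    · exact ⟨_, diamRel_jd hγ e heM⟩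
    · exact ⟨_, diamRel_fricke hE hS hγ d hγd a ha⟩
  refine ⟨(diamMap γ).comp (Subalgebra.inclusion hgen), ?_, ?_⟩
  · rintro x ⟨e, he, heM, rfl⟩ hx
    exact diamMap_eq (diamRel_jd hγ e heM) _
  · intro a ha hx
    exact diamMap_eq (diamRel_fricke hE hS hγ d hγd a ha) _

end Fermat.Agent.S48WA1
end
end MergeWrap_S48_W_A1_Diam

section MergeWrap_S48_W_A1_Wire -- from S48/W/A1/Wire.lean

set_option autoImplicit false

noncomputable section

namespace Fermat.Agent.S48WA1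

open Fermat.Agent.S24 Fermat.Agent.S48W

theorem a1_xHol_of (hX : XExpStatement) : XHolStatement := xHol_of hX xPeriod

theorem a1_frickeHol_of (hX : XExpStatement) : FrickeHolStatement := frickeHol_of hX xPeriod

theorem a1_frickeExp_of (hX : XExpStatement) : FrickeExpStatement :=
  frickeExp_of hX xPeriod Fermat.Agent.S48WA1Eq.eqExp

theorem a1_frickeOneExp_of (hX : XExpStatement) : FrickeOneExpStatement :=
  frickeOneExp_of hX xPeriod Fermat.Agent.S48WA1Eq.eqExp

theorem a1_frickeIntegral_of (hX : XExpStatement) : FrickeIntegralStatement :=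
  frickeIntegral_of (a1_frickeHol_of hX) frickeSmul xPeriod (a1_frickeExp_of hX)

theorem a1_frickeAlgebraicOne_of (hX : XExpStatement) (M : ℕ) [NeZero M] :
    FrickeAlgebraicOne M :=
  frickeAlgebraicOne_of (a1_frickeIntegral_of hX) M

theorem a1_frickeAlgebraicBarOne_of (hX : XExpStatement) (M : ℕ) [NeZero M] :
    FrickeAlgebraicBarOne M :=
  frickeAlgebraicBarOne_of_integral (a1_frickeIntegral_of hX) M

theorem a1_diamondComplexOne_of (hX : XExpStatement) (M : ℕ) [NeZero M] :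
    DiamondComplexOne M :=
  diamondComplexOne_of (a1_frickeOneExp_of hX) frickeOneSmul M

end Fermat.Agent.S48WA1
end
end MergeWrap_S48_W_A1_Wire
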